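import Mathlib
import Fermat.Agent.G.EsTor.CorePow
import Fermat.Agent.DS.C.Good

/-!
# Program DS, package (C), row C5, sub-package EsTor (helper28) : (CORE^n), the core claim for
`p^n` at level `(M, P)`  (`Γ₁(M)`-port of `G/EsTor/CorePow.lean`)

The two inputs are EXPLICIT HYPOTHESES (named predicates), to be discharged at wiring time:

* `DscetGN M P A`      : Gauss normalisation in quotient form = statement of helper14's
  `dscgn_normal M P A hℓ hA` (`DS/C/GN/Main.lean`);
* `DscetCore M P A p`  : the core claim for the prime `p` = statement of helper6's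
  `dsc_core M P hℓ A hA p hp hpℓ` (`DS/C/Core/Main.lean`, row C4).

`dscet_core_pow` : from these, the core claim for `p^n` (induction on `n`).
All the constant bookkeeping (`getc_*`) is generic and imported from `G/EsTor/CorePow(Aux).lean`.
-/

set_option autoImplicit false
set_option linter.unusedSectionVars false
set_option synthInstance.maxHeartbeats 400000

noncomputable section

namespace Fermat.Agent.DS

open ModularCurve AlgebraicCurve IsLocalRing Fermat.Agent.S18 Fermat.Agent.S24 Fermat.Agent.G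

local notation "Qb" => AlgebraicClosure ℚ

variable (M P : ℕ)
variable (A : ValuationSubring (AlgebraicClosure ℚ))

/-- (GN) Gauss normalisation in quotient form at level `(M, P)`. -/
def DscetGN : Prop :=
  ∀ f : dscFieldBar M P, f ≠ 0 →
    ∃ (c : Qb) (u₁ u₂ : LaurentSeries A) (h₁ : DscGood M P A u₁) (h₂ : DscGood M P A u₂),
      c ≠ 0 ∧ h₁.spec ≠ 0 ∧ h₂.spec ≠ 0 ∧
        algebraMap Qb (dscFieldBar M P) c * f * h₂.gen = h₁.gen

/-- (CORE) the core claim of level `(M, P)` for the prime `p`. -/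
def DscetCore (p : ℕ) : Prop :=
  ∀ (u₁ u₂ : LaurentSeries A) (h₁ : DscGood M P A u₁) (h₂ : DscGood M P A u₂),
    coeffMap (residue A) u₁ = coeffMap (residue A) u₂ →
    coeffMap (residue A) u₁ ≠ 0 →
    (∀ Q : Place Qb (dscFieldBar M P), (p : ℤ) ∣ Q.ord h₁.gen - Q.ord h₂.gen) →
    ∃ g : dscFieldBar M P, g ^ p * h₂.gen = h₁.gen

variable {M P A}

/-- the underlying series of a constant of `F_ℚ̄(M, P)` -/
theorem dscet_coe_algebraMap (c : Qb) :
    ((algebraMap Qb (dscFieldBar M P) c : dscFieldBar M P) : LaurentSeries Qb) =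
      HahnSeries.C c := by
  show algebraMap Qb (LaurentSeries Qb) c = _
  rw [algebraMap_laurentSeries_eq_single]
  rfl

theorem dscet_spec_ne_zero {u : LaurentSeries A} (hu : DscGood M P A u)
    (h : coeffMap (residue A) u ≠ 0) : hu.spec ≠ 0 := by
  intro h0
  exact h (congrArg Subtype.val h0)

variable (M P A)

/-- (CORE^n) the core claim for `p^n`. -/
theorem dscet_core_pow {ℓ : ℕ} [Fact ℓ.Prime] (hGN : DscetGN M P A) (hA : A.LiesOverPrime ℓ)
    (p : ℕ) (hp : p.Prime) (hpℓ : p ≠ ℓ) (hCore : DscetCore M P A p) (n : ℕ)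
    (u₁ u₂ : LaurentSeries A) (h₁ : DscGood M P A u₁) (h₂ : DscGood M P A u₂)
    (hred : coeffMap (residue A) u₁ = coeffMap (residue A) u₂)
    (hne : coeffMap (residue A) u₁ ≠ 0)
    (hdiv : ∀ Q : Place Qb (dscFieldBar M P),
      ((p ^ n : ℕ) : ℤ) ∣ Q.ord h₁.gen - Q.ord h₂.gen) :
    ∃ g : dscFieldBar M P, g ^ (p ^ n) * h₂.gen = h₁.gen := by
  induction n generalizing u₁ u₂ with
  | zero =>
    have hne₂ : coeffMap (residue A) u₂ ≠ 0 := hred ▸ hne
    have hg₂ : h₂.gen ≠ 0 := h₂.gen_ne_zero (dscet_spec_ne_zero h₂ hne₂)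
    exact ⟨h₁.gen / h₂.gen, by rw [pow_zero, pow_one, div_mul_cancel₀ _ hg₂]⟩
  | succ n ih =>
    have hne₂ : coeffMap (residue A) u₂ ≠ 0 := hred ▸ hne
    have hg₁ : h₁.gen ≠ 0 := h₁.gen_ne_zero (dscet_spec_ne_zero h₁ hne)
    have hg₂ : h₂.gen ≠ 0 := h₂.gen_ne_zero (dscet_spec_ne_zero h₂ hne₂)
    -- the characteristic of `k` is `ℓ`, so `p` is invertible in `k`
    have hpk : ((p : ℕ) : ResidueField A) ≠ 0 := by
      haveI : CharP (ResidueField A) ℓ := s18ac_charP A hA
      intro h0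
      rw [CharP.cast_eq_zero_iff (ResidueField A) ℓ] at h0
      exact hpℓ ((Nat.prime_dvd_prime_iff_eq (Fact.out : ℓ.Prime) hp).1 h0).symm
    -- step 1: the `p`-th root from the core claim
    have hdiv' : ∀ Q : Place Qb (dscFieldBar M P), (p : ℤ) ∣ Q.ord h₁.gen - Q.ord h₂.gen := by
      intro Q
      refine dvd_trans ?_ (hdiv Q)
      rw [pow_succ]
      exact_mod_cast Dvd.intro_left (p ^ n) rfl
    obtain ⟨g₁, hg₁eq⟩ := hCore u₁ u₂ h₁ h₂ hred hne hdiv'
    have hg₁ne : g₁ ≠ 0 := by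
      rintro rfl
      rw [zero_pow hp.ne_zero, zero_mul] at hg₁eq
      exact hg₁ hg₁eq.symm
    -- step 2: Gauss normalisation of `g₁`
    obtain ⟨c, v₁, v₂, k₁, k₂, hc, hspec₁, hspec₂, hgn⟩ := hGN g₁ hg₁ne
    have hnv₁ : coeffMap (residue A) v₁ ≠ 0 := fun h0 => hspec₁ (Subtype.ext h0)
    have hnv₂ : coeffMap (residue A) v₂ ≠ 0 := fun h0 => hspec₂ (Subtype.ext h0)
    have hkg₁ : k₁.gen ≠ 0 := k₁.gen_ne_zero hspec₁
    have hkg₂ : k₂.gen ≠ 0 := k₂.gen_ne_zero hspec₂
    have hcF : algebraMap Qb (dscFieldBar M P) c ≠ 0 := by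
      rw [Ne, map_eq_zero]
      exact hc
    -- step 3: `c ^ p` is a unit of `𝔸`: `c^p · (v₂^p u₁) = v₁^p u₂`
    have hx : coeffMap (residue A) (v₁ ^ p * u₂) ≠ 0 := by
      rw [map_mul, map_pow]
      exact mul_ne_zero (pow_ne_zero p hnv₁) hne₂
    have hy : coeffMap (residue A) (v₂ ^ p * u₁) ≠ 0 := by
      rw [map_mul, map_pow]
      exact mul_ne_zero (pow_ne_zero p hnv₂) hne
    have hF : algebraMap Qb (dscFieldBar M P) (c ^ p) *
        (k₂.gen ^ p * h₁.gen) = k₁.gen ^ p * h₂.gen := by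
      rw [← hgn, ← hg₁eq, map_pow]
      ring
    have hcx : HahnSeries.C (c ^ p) * coeffMap A.subtype (v₂ ^ p * u₁) =
        coeffMap A.subtype (v₁ ^ p * u₂) := by
      have h0 := congrArg (Subtype.val) hF
      have h1 : (((algebraMap Qb (dscFieldBar M P) (c ^ p) *
          (k₂.gen ^ p * h₁.gen) : dscFieldBar M P)) : LaurentSeries Qb) =
          HahnSeries.C (c ^ p) * (coeffMap A.subtype v₂ ^ p * coeffMap A.subtype u₁) := by
        rw [MulMemClass.coe_mul, MulMemClass.coe_mul, SubmonoidClass.coe_pow,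
          dscet_coe_algebraMap]
        rfl
      have h2 : (((k₁.gen ^ p * h₂.gen : dscFieldBar M P)) : LaurentSeries Qb) =
          coeffMap A.subtype v₁ ^ p * coeffMap A.subtype u₂ := by
        rw [MulMemClass.coe_mul, SubmonoidClass.coe_pow]
        rfl
      rw [h1, h2] at h0
      rw [map_mul (coeffMap A.subtype), map_pow (coeffMap A.subtype),
        map_mul (coeffMap A.subtype), map_pow (coeffMap A.subtype)]
      exact h0
    obtain ⟨d, hd⟩ := getc_unit_of_primitive A (c ^ p) (v₂ ^ p * u₁) (v₁ ^ p * u₂) hy hx hcx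
    -- step 4: `(red v₁ / red v₂)^p` is a nonzero constant
    have hdx : HahnSeries.C (d : A) * (v₂ ^ p * u₁) = v₁ ^ p * u₂ := by
      apply s18a_coeffMap_subtype_injective
      rw [map_mul, getc_coeffMap_C]
      show HahnSeries.C ((d : A) : Qb) * _ = _
      rw [hd]
      exact hcx
    have hdres : residue A (d : A) ≠ 0 := by
      intro h0
      exact ((IsLocalRing.residue_eq_zero_iff (d : A)).1 h0) d.isUnit
    have hpow : (coeffMap (residue A) v₁ / coeffMap (residue A) v₂) ^ p =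
        HahnSeries.C (residue A (d : A)) := by
      have h0 := congrArg (coeffMap (residue A)) hdx
      rw [map_mul, map_mul, map_mul, map_pow, map_pow, getc_coeffMap_C, hred, ← mul_assoc] at h0
      have h1 : HahnSeries.C (residue A (d : A)) * coeffMap (residue A) v₂ ^ p =
          coeffMap (residue A) v₁ ^ p := mul_right_cancel₀ hne₂ h0
      rw [div_pow, ← h1, mul_div_assoc, div_self (pow_ne_zero p hnv₂), mul_one]
    obtain ⟨b, hb0, hb⟩ := getc_laurent_const p hpk
      (coeffMap (residue A) v₁ / coeffMap (residue A) v₂) (residue A (d : A)) hdres hpow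
    -- step 5: lift the constant and apply the induction hypothesis to `(v₁, ã v₂)`
    obtain ⟨a, rfl⟩ := IsLocalRing.residue_surjective b
    have hka : DscGood M P A (HahnSeries.C a * v₂) := (DscGood.const a).mul k₂
    have hred' : coeffMap (residue A) v₁ = coeffMap (residue A) (HahnSeries.C a * v₂) := by
      rw [map_mul, getc_coeffMap_C, ← hb, div_mul_cancel₀ _ hnv₂]
    have ha0 : (a : Qb) ≠ 0 := by
      intro h0
      apply hb0
      have : a = 0 := Subtype.ext h0
      rw [this, map_zero]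
    have haF : algebraMap Qb (dscFieldBar M P) (a : Qb) ≠ 0 := by
      rw [Ne, map_eq_zero]
      exact ha0
    have hkagen : hka.gen = algebraMap Qb (dscFieldBar M P) (a : Qb) * k₂.gen := by
      show ((DscGood.const (M := M) (P := P) a).mul k₂).gen = _
      rw [DscGood.gen_mul (DscGood.const (M := M) (P := P) a) k₂, DscGood.gen_const]
    have hdiv₃ : ∀ Q : Place Qb (dscFieldBar M P),
        ((p ^ n : ℕ) : ℤ) ∣ Q.ord k₁.gen - Q.ord hka.gen := by
      intro Q
      have e0 : Q.ord k₁.gen = Q.ord g₁ + Q.ord k₂.gen := by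
        rw [← hgn, Q.ord_mul (mul_ne_zero hcF hg₁ne) hkg₂, Q.ord_mul hcF hg₁ne,
          PlaceOrd.ord_algebraMap, zero_add]
      have e1 : Q.ord h₁.gen = (p : ℤ) * Q.ord g₁ + Q.ord h₂.gen := by
        rw [← hg₁eq, Q.ord_mul (pow_ne_zero p hg₁ne) hg₂, ← zpow_natCast, Q.ord_zpow]
      have e2 := hdiv Q
      rw [e1, add_sub_cancel_right, pow_succ, Nat.cast_mul, mul_comm] at e2
      have e3 : ((p ^ n : ℕ) : ℤ) ∣ Q.ord g₁ :=
        (mul_dvd_mul_iff_left (by exact_mod_cast hp.ne_zero)).1 e2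
      rw [hkagen, Q.ord_mul haF hkg₂, PlaceOrd.ord_algebraMap, zero_add, e0,
        add_sub_cancel_right]
      exact e3
    obtain ⟨g₂, hg₂eq⟩ := ih v₁ (HahnSeries.C a * v₂) k₁ hka hred' hnv₁ hdiv₃
    rw [hkagen] at hg₂eq
    -- `g₁ = (ã / c) · g₂^(p^n)`
    have hg₁' : g₁ = algebraMap Qb (dscFieldBar M P) ((a : Qb) / c) * g₂ ^ (p ^ n) := by
      have h0 : algebraMap Qb (dscFieldBar M P) c * g₁ * k₂.gen =
          g₂ ^ p ^ n * (algebraMap Qb (dscFieldBar M P) (a : Qb) * k₂.gen) := by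
        rw [hgn, hg₂eq]
      have h1 : algebraMap Qb (dscFieldBar M P) c * g₁ =
          g₂ ^ p ^ n * algebraMap Qb (dscFieldBar M P) (a : Qb) := by
        apply mul_right_cancel₀ hkg₂
        rw [h0, mul_assoc]
      rw [map_div₀, div_mul_eq_mul_div, eq_div_iff hcF, mul_comm g₁, h1, mul_comm]
    -- step 6: a `p^(n+1)`-th root of the constant `(ã / c)^p`
    obtain ⟨b', hb'⟩ := IsAlgClosed.exists_pow_nat_eq (((a : Qb) / c) ^ p)
      (pow_pos hp.pos (n + 1))
    refine ⟨algebraMap Qb (dscFieldBar M P) b' * g₂, ?_⟩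
    rw [← hg₁eq, hg₁', mul_pow, ← map_pow, hb', pow_succ, pow_mul, map_pow, mul_pow]

end Fermat.Agent.DS
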