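import Mathlib
import Fermat.Agent.G.EsTor.Gal
import Fermat.Agent.DS.C.Good
import Fermat.Agent.DS.C.Galois

/-!
# Program DS, package (C), row C5, sub-package EsTor (helper28) : the decomposition group acts on
good integral elements (`Γ₁(M)`-port of `G/EsTor/Gal.lean`)

`getDecHom`, `getDecRes`, `getl_spec_dec`, `getl_coeffMap_subtype` are generic and imported from
`G/EsTor/{Defs,Gal}.lean`.

* `dscet_coeffMap_mem` : base change of `dscFieldC K M P` along a field homomorphism `K →+* K'`;
* `dscet_good_dec`  : `σ u` is good if `u` is (`σ` in the decomposition group of `A`);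
* `dscet_gen_dec`   : on the generic fibre `σ` acts through `arithmeticGalois`;
* `dscet_spec_dec`  : on the special fibre `σ` acts through its image in `Aut k`.
-/

set_option autoImplicit false
set_option linter.unusedSectionVars false
set_option synthInstance.maxHeartbeats 400000

noncomputable section

namespace Fermat.Agent.DS

open ModularCurve AlgebraicCurve IsLocalRing IntermediateField Fermat.Agent.G

/-- base change of the function field of level `(M, P)` along a field homomorphism. -/
theorem dscet_coeffMap_mem {K K' : Type*} [Field K] [Field K'] (φ : K →+* K') (M P : ℕ)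
    {x : LaurentSeries K} (hx : x ∈ dscFieldC K M P) : coeffMap φ x ∈ dscFieldC K' M P := by
  have hx' : x ∈ (dscFieldC K M P).toSubfield := hx
  rw [dscFieldC, IntermediateField.adjoin_toSubfield] at hx'
  have hle : Subfield.closure (Set.range (algebraMap K (LaurentSeries K)) ∪ dscGen K M P) ≤
      ((dscFieldC K' M P).toSubfield).comap (coeffMap φ) := by
    rw [Subfield.closure_le]
    rintro y (⟨a, rfl⟩ | ⟨d, hd0, hd, rfl⟩ | ⟨e, he0, a, b, c, he, hadm, rfl⟩)
    · change coeffMap φ _ ∈ dscFieldC K' M P
      rw [algebraMap_laurentSeries_eq_single, coeffMap_single,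
        ← algebraMap_laurentSeries_eq_single]
      exact (dscFieldC K' M P).algebraMap_mem _
    · change coeffMap φ _ ∈ dscFieldC K' M P
      rw [dsc_coeffMap_qExpand, coeffMap_jqModC]
      exact subset_adjoin K' _ (Or.inl ⟨d, hd0, hd, rfl⟩)
    · change coeffMap φ _ ∈ dscFieldC K' M P
      rw [dsc_coeffMap_qExpand, dsc_coeffMap_dscR]
      exact subset_adjoin K' _ (Or.inr ⟨e, he0, a, b, c, he, hadm, rfl⟩)
  exact hle hx'

variable (M P : ℕ)
variable (A : ValuationSubring (AlgebraicClosure ℚ))

/-- (GAL3) on the special fibre `σ` acts through its image in `Aut k` (coefficientwise). -/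
theorem dscet_spec_dec (σ : A.decompositionSubgroup ℚ) (u : LaurentSeries A) :
    coeffMap (residue A) (coeffMap (getDecHom A σ) u) =
      coeffMap (getDecRes A σ) (coeffMap (residue A) u) :=
  getl_spec_dec A σ u

/-- (GAL1) the decomposition group preserves good integral elements. -/
theorem dscet_good_dec (σ : A.decompositionSubgroup ℚ) {u : LaurentSeries A}
    (hu : DscGood M P A u) : DscGood M P A (coeffMap (getDecHom A σ) u) := by
  refine ⟨?_, ?_⟩
  · rw [getl_coeffMap_subtype]
    exact coeffMap_mem_laurentBaseChange _ hu.1
  · rw [getl_spec_dec]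
    exact dscet_coeffMap_mem (getDecRes A σ) M P hu.2

/-- (GAL2) on the generic fibre `σ` acts through `arithmeticGalois` (coefficientwise). -/
theorem dscet_gen_dec (σ : A.decompositionSubgroup ℚ) {u : LaurentSeries A}
    (hu : DscGood M P A u) :
    (dscet_good_dec M P A σ hu).gen =
      arithmeticGalois (dscField M P)
        ((σ : AlgebraicClosure ℚ ≃ₐ[ℚ] AlgebraicClosure ℚ)) • hu.gen := by
  apply Subtype.ext
  rw [coe_arithmeticGalois_smul]
  exact getl_coeffMap_subtype A σ u

end Fermat.Agent.DS
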