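import Mathlib
import Fermat.Agent.G.EsTor.Main
import Fermat.Agent.DS.C.FF.Main
import Fermat.Agent.DS.C.EsTor.Gal
import Fermat.Agent.DS.C.EsTor.CorePow

/-!
# Program DS, package (C), row C5, sub-package EsTor (helper28) : EICHLER–SHIMURA ON TORSION of
`J₁(M)(ℚ̄)`, at the level of functions  (`Γ₁(M)`-port of `G/EsTor/Main.lean`, with the `⟨ℓ⟩`-twist)

`x ∈ J₁(M)[p^n]`, `x = [D]`, `p^n D = div f`, `c · f · u₂ = u₁` with `u₁, u₂` good (`DscetGN`).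
* inertia at `ℓ ∤ M p` : exactly as for `Γ₀` (`dscet_inertia`);
* Frobenius `σ` at `ℓ` : with `T = dscHeckeBar M ℓ = α_* β^*` and `δ = dscDiamondAut ℚ̄ M 1 d`,
  the Kronecker congruence in FRACTION FORM (`DscetConj`, = helper14's `dsccj_norm_congr`)
  `c·N_α(β u) = U₁/U₂`, `c'·δ u = w₁/w₂`, `Ū₁ · φ(w̄₂) = Ū₂ · ū(q^ℓ) · φ(w̄₁)` applied to
  `σ u₁`, `σ u₂` gives two good elements
  `W₁ = σ(w₁¹) σ(w₂²) U₂¹ U₁² u₁^ℓ`, `W₂ = σ(w₂¹) σ(w₁²) U₁¹ U₂² u₂^ℓ` with EQUAL reductions and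
  `p^n (δ σ² D − T σ D + ℓ D) = div (W₁ / W₂)`; the core claim for `p^n` gives
  `⟨d⟩ (σ² x) − T_ℓ (σ x) + ℓ x = 0`   (`dscet_frobenius`).

TOP: `dsc_es_torsion`.  The inputs (GN), (CORE), (FF1), (CONJ) are EXPLICIT HYPOTHESES
(`DscetGN`, `DscetCore`, `DscHeckeInputsAlong`, `DscetConj`), to be discharged at wiring time by
`dscgn_normal` (helper14), `dsc_core` (helper6, C4), `dscff_heckeInputs` (+ C2's `IsSepGen j`),
`dsccj_norm_congr` (helper14, Conj).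
-/

set_option autoImplicit false
set_option linter.unusedSectionVars false
set_option linter.unusedVariables false
set_option linter.style.haveILetI false
set_option synthInstance.maxHeartbeats 400000

noncomputable section

namespace Fermat.Agent.DS

open ModularCurve AlgebraicCurve IsLocalRing Fermat.Agent.S18 Fermat.Agent.G

local notation "Qb" => AlgebraicClosure ℚ

/-- (CONJ) THE KRONECKER CONGRUENCE FOR FUNCTIONS ON `X₁(M)`, FRACTION FORM (statement of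
helper14's `dsccj_norm_congr`): for a good `u` with `ū ≠ 0`,
`c · N_α(β u) = U₁ / U₂`, `c' · ⟨d⟩ u = w₁ / w₂` with good `U_i, w_i` of nonzero reduction and
`Ū₁ · φ(w̄₂) = Ū₂ · ū(q^ℓ) · φ(w̄₁)`. -/
def DscetConj (M ℓ : ℕ) [NeZero ℓ] (A : ValuationSubring Qb) (d : (ZMod M)ˣ)
    (φ : ResidueField A →+* ResidueField A) : Prop :=
  ∀ (u : LaurentSeries A) (hu : DscGood M 1 A u), hu.spec ≠ 0 →
    ∃ (U₁ U₂ w₁ w₂ : LaurentSeries A) (hU₁ : DscGood M 1 A U₁) (hU₂ : DscGood M 1 A U₂)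
      (hw₁ : DscGood M 1 A w₁) (hw₂ : DscGood M 1 A w₂) (c c' : Qb),
      c ≠ 0 ∧ c' ≠ 0 ∧ hU₁.spec ≠ 0 ∧ hU₂.spec ≠ 0 ∧ hw₁.spec ≠ 0 ∧ hw₂.spec ≠ 0 ∧
      algebraMap Qb (dscFieldBar M 1) c * dscHeckeFun M 1 ℓ hu.gen * hU₂.gen = hU₁.gen ∧
      algebraMap Qb (dscFieldBar M 1) c' * dscDiamondAut Qb M 1 d hu.gen * hw₂.gen = hw₁.gen ∧
      coeffMap (residue A) U₁ * coeffMap φ (coeffMap (residue A) w₂) =
        coeffMap (residue A) U₂ * qExpand (ResidueField A) ℓ (coeffMap (residue A) u) *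
          coeffMap φ (coeffMap (residue A) w₁)

variable (M : ℕ)

local notation "FM" => dscFieldBar M 1

/-! ### Divisor classes and functions -/

/-- a class killed by `m` comes with a function. -/
theorem dscet_exists_fun (D : Divisor.degZero (K := Qb) (F := FM)) (m : ℕ)
    (h : m • (Pic0.mk D) = 0) :
    ∃ f : FM, f ≠ 0 ∧ ∀ Q : Place Qb FM, (m : ℤ) * (D : Divisor Qb FM) Q = Q.ord f := by
  have h0 : Pic0.mk (m • D) = 0 := by rw [← h]; rfl
  have h1 := (QuotientAddGroup.eq_zero_iff _).mp h0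
  rw [AddSubgroup.mem_addSubgroupOf] at h1
  obtain ⟨f, hf, hD⟩ := h1
  refine ⟨f, hf, fun Q => ?_⟩
  rw [← hD Q]
  simp

/-- a degree zero divisor which is the divisor of a function has trivial class. -/
theorem dscet_mk_eq_zero (E : Divisor.degZero (K := Qb) (F := FM)) (g : FM) (hg : g ≠ 0)
    (h : ∀ Q : Place Qb FM, (E : Divisor Qb FM) Q = Q.ord g) : Pic0.mk E = 0 := by
  apply (QuotientAddGroup.eq_zero_iff _).mpr
  rw [AddSubgroup.mem_addSubgroupOf]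
  exact ⟨g, hg, h⟩

theorem dscet_ord_const_mul (c : Qb) (x : FM) (hc : c ≠ 0) (hx : x ≠ 0) (Q : Place Qb FM) :
    Q.ord (algebraMap Qb FM c * x) = Q.ord x := by
  have hc' : algebraMap Qb FM c ≠ 0 := by simpa using hc
  rw [Q.ord_mul hc' hx, Fermat.Agent.S24.PlaceOrd.ord_algebraMap, zero_add]

theorem dscet_ord_pow (x : FM) (n : ℕ) (Q : Place Qb FM) :
    Q.ord (x ^ n) = (n : ℤ) * Q.ord x := by
  rw [← zpow_natCast, Q.ord_zpow]

/-- orders of a function in quotient form `c · f · y₂ = y₁`. -/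
theorem dscet_ord_of_quot (f : FM) (hf : f ≠ 0) (c : Qb) (hc : c ≠ 0) (y₁ y₂ : FM)
    (hy₂ : y₂ ≠ 0) (h : algebraMap Qb FM c * f * y₂ = y₁) (Q : Place Qb FM) :
    Q.ord f = Q.ord y₁ - Q.ord y₂ := by
  have hc' : algebraMap Qb FM c ≠ 0 := by simpa using hc
  rw [← h, Q.ord_mul (mul_ne_zero hc' hf) hy₂, dscet_ord_const_mul M c f hc hf]
  ring

/-- the key criterion: a class `[E]` with `p^n E = div (u₁ / u₂)`, `ū₁ = ū₂ ≠ 0`, is trivial. -/
theorem dscet_zero_of_good {ℓ : ℕ} [Fact ℓ.Prime] (A : ValuationSubring Qb)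
    (hA : A.LiesOverPrime ℓ) (hGN : DscetGN M 1 A) (p : ℕ) (hp : p.Prime) (hpℓ : p ≠ ℓ)
    (hCore : DscetCore M 1 A p) (n : ℕ)
    (E : Divisor.degZero (K := Qb) (F := FM))
    (u₁ u₂ : LaurentSeries A) (h₁ : DscGood M 1 A u₁) (h₂ : DscGood M 1 A u₂)
    (hred : coeffMap (residue A) u₁ = coeffMap (residue A) u₂)
    (hne : coeffMap (residue A) u₁ ≠ 0)
    (hE : ∀ Q : Place Qb FM,
      ((p ^ n : ℕ) : ℤ) * (E : Divisor Qb FM) Q = Q.ord h₁.gen - Q.ord h₂.gen) :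
    Pic0.mk E = 0 := by
  obtain ⟨g, hg⟩ := dscet_core_pow M 1 A hGN hA p hp hpℓ hCore n u₁ u₂ h₁ h₂ hred hne
    (fun Q => ⟨_, (hE Q).symm⟩)
  have hs₁ : h₁.spec ≠ 0 := fun h0 => hne (congrArg Subtype.val h0)
  have hs₂ : h₂.spec ≠ 0 := fun h0 => hne (by rw [hred]; exact congrArg Subtype.val h0)
  have hg₁ := h₁.gen_ne_zero hs₁
  have hg₂ := h₂.gen_ne_zero hs₂
  have hpn : p ^ n ≠ 0 := pow_ne_zero _ hp.ne_zero
  have hg0 : g ≠ 0 := by
    rintro rfl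
    rw [zero_pow hpn, zero_mul] at hg
    exact hg₁ hg.symm
  refine dscet_mk_eq_zero M E g hg0 fun Q => ?_
  have e1 : Q.ord (g ^ (p ^ n) * h₂.gen) = Q.ord h₁.gen := by rw [hg]
  rw [Q.ord_mul (pow_ne_zero _ hg0) hg₂, dscet_ord_pow] at e1
  have e2 := hE Q
  have hpn' : ((p ^ n : ℕ) : ℤ) ≠ 0 := by exact_mod_cast hpn
  have e3 : ((p ^ n : ℕ) : ℤ) * (E : Divisor Qb FM) Q = ((p ^ n : ℕ) : ℤ) * Q.ord g := by
    linarith
  exact mul_left_cancel₀ hpn' e3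

/-! ### Galois transport and the diamond -/

/-- the semilinear automorphism of `F_ℚ̄(Γ₁(M))` attached to `σ` -/
abbrev dscetAut (σ : Qb ≃ₐ[ℚ] Qb) : SemilinearAut Qb FM :=
  arithmeticGalois (dscField M 1) σ

theorem dscet_smul_mk (σ : Qb ≃ₐ[ℚ] Qb) (D : Divisor.degZero (K := Qb) (F := FM)) :
    σ • (Pic0.mk D : DscJ M) = Pic0.mk (SemilinearAut.degZeroSMulHom (dscetAut M σ) D) := rfl

/-- transport of a pair (divisor, function) by a semilinear automorphism. -/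
theorem dscet_smul_pair (g : SemilinearAut Qb FM) (D : Divisor.degZero (K := Qb) (F := FM))
    (m : ℤ) (f : FM) (h : ∀ Q : Place Qb FM, m * (D : Divisor Qb FM) Q = Q.ord f) :
    ∀ Q : Place Qb FM,
      m * ((SemilinearAut.degZeroSMulHom g D : Divisor.degZero (K := Qb) (F := FM)) :
        Divisor Qb FM) Q = Q.ord (g • f) := by
  intro Q
  rw [SemilinearAut.coe_degZeroSMulHom, SemilinearAut.divisor_smul_apply, h]
  have := SemilinearAut.ord_smul g (g⁻¹ • Q) f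
  rw [smul_inv_smul] at this
  exact this.symm

theorem dscet_smul_const_mul (σ : Qb ≃ₐ[ℚ] Qb) (c : Qb) (x : FM) :
    dscetAut M σ • (algebraMap Qb FM c * x) = algebraMap Qb FM (σ c) * (dscetAut M σ • x) := by
  rw [smul_mul', SemilinearAut.smul_algebraMap]
  rfl

theorem dscet_smul_ne_zero (g : SemilinearAut Qb FM) (x : FM) (hx : x ≠ 0) : g • x ≠ 0 := by
  intro h
  apply hx
  have := congrArg (fun y => g⁻¹ • y) h
  simpa using this

/-- the diamond automorphism as a semilinear automorphism -/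
abbrev dscetDia (d : (ZMod M)ˣ) : SemilinearAut Qb FM :=
  SemilinearAut.ofAlgAut (dscDiamondAut Qb M 1 d)

theorem dscetDia_smul (d : (ZMod M)ˣ) (x : FM) :
    dscetDia M d • x = dscDiamondAut Qb M 1 d x := rfl

theorem dscet_dia_mk (d : (ZMod M)ˣ) (D : Divisor.degZero (K := Qb) (F := FM)) :
    dscDiamondBar M d (Pic0.mk D : DscJ M) =
      Pic0.mk (SemilinearAut.degZeroSMulHom (dscetDia M d) D) := rfl

/-- the diamond commutes with the coefficientwise Galois action on functions. -/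
theorem dscet_dia_galois (d : (ZMod M)ˣ) (σ : Qb ≃ₐ[ℚ] Qb) (x : FM) :
    dscetAut M σ • (dscDiamondAut Qb M 1 d x) = dscDiamondAut Qb M 1 d (dscetAut M σ • x) :=
  dsc_diamondAut_galois d σ x

/-! ### `Pic0.mk` as a homomorphism -/

/-- `Pic0.mk` as an additive homomorphism -/
def dscetMkHom : Divisor.degZero (K := Qb) (F := FM) →+ DscJ M :=
  QuotientAddGroup.mk' _

theorem dscetMkHom_apply (D : Divisor.degZero (K := Qb) (F := FM)) :
    dscetMkHom M D = Pic0.mk D := rfl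

/-! ### Orders of a Gauss-normalised function -/

theorem dscet_ord_of_normal {A : ValuationSubring Qb} (f : FM) (hf : f ≠ 0) (c : Qb)
    (u₁ u₂ : LaurentSeries A) (h₁ : DscGood M 1 A u₁) (h₂ : DscGood M 1 A u₂) (hc : c ≠ 0)
    (hs₂ : h₂.spec ≠ 0) (h : algebraMap Qb FM c * f * h₂.gen = h₁.gen) (Q : Place Qb FM) :
    Q.ord f = Q.ord h₁.gen - Q.ord h₂.gen :=
  dscet_ord_of_quot M f hf c hc _ _ (h₂.gen_ne_zero hs₂) h Q

/-! ### Inertia -/

theorem dscet_inertia {ℓ : ℕ} [Fact ℓ.Prime] (A : ValuationSubring Qb)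
    (hA : A.LiesOverPrime ℓ) (hGN : DscetGN M 1 A) (p : ℕ) (hp : p.Prime) (hpℓ : p ≠ ℓ)
    (hCore : DscetCore M 1 A p)
    (σ : Qb ≃ₐ[ℚ] Qb) (hσ : σ ∈ A.inertiaSubgroupIn ℚ) (x : DscJ M) (n : ℕ)
    (hx : p ^ n • x = 0) : σ • x = x := by
  obtain ⟨τ, hτ, rfl⟩ := hσ
  obtain ⟨D, rfl⟩ := Pic0.mk_surjective x
  obtain ⟨f, hf, hD⟩ := dscet_exists_fun M D (p ^ n) hx
  obtain ⟨c, u₁, u₂, h₁, h₂, hc, hs₁, hs₂, hcf⟩ := hGN f hf
  set g := dscetAut M ((A.decompositionSubgroup ℚ).subtype τ) with hgdef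
  -- the conjugate pair
  have hD' := dscet_smul_pair M g D _ f hD
  -- Gauss normal form of the conjugate
  have k₁ := dscet_good_dec M 1 A τ h₁
  have k₂ := dscet_good_dec M 1 A τ h₂
  have hcf' : algebraMap Qb FM (((A.decompositionSubgroup ℚ).subtype τ) c) * (g • f) * k₂.gen
      = k₁.gen := by
    rw [dscet_gen_dec M 1 A τ h₁, dscet_gen_dec M 1 A τ h₂, ← hcf, smul_mul',
      dscet_smul_const_mul]
    rfl
  have hres : getDecRes A τ = RingHom.id _ := getm_getDecRes_of_mem_inertia A τ hτ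
  have hk₁s : k₁.spec = h₁.spec := Subtype.ext (by
    show coeffMap (residue A) (coeffMap (getDecHom A τ) u₁) = coeffMap (residue A) u₁
    rw [dscet_spec_dec, hres, coeffMap_id])
  have hk₂s : k₂.spec = h₂.spec := Subtype.ext (by
    show coeffMap (residue A) (coeffMap (getDecHom A τ) u₂) = coeffMap (residue A) u₂
    rw [dscet_spec_dec, hres, coeffMap_id])
  have hgf : g • f ≠ 0 := dscet_smul_ne_zero M _ f hf
  have hc' : ((A.decompositionSubgroup ℚ).subtype τ) c ≠ 0 := by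
    simpa using hc
  -- the two good elements
  have hU₁ : DscGood M 1 A (coeffMap (getDecHom A τ) u₁ * u₂) := k₁.mul h₂
  have hU₂ : DscGood M 1 A (coeffMap (getDecHom A τ) u₂ * u₁) := k₂.mul h₁
  have hk₁g := k₁.gen_ne_zero (hk₁s ▸ hs₁)
  have hk₂g := k₂.gen_ne_zero (hk₂s ▸ hs₂)
  have hg₁ := h₁.gen_ne_zero hs₁
  have hg₂ := h₂.gen_ne_zero hs₂
  have key : Pic0.mk (SemilinearAut.degZeroSMulHom g D - D) = 0 := by
    refine dscet_zero_of_good M A hA hGN p hp hpℓ hCore n _ _ _ hU₁ hU₂ ?_ ?_ ?_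
    · rw [map_mul, map_mul, dscet_spec_dec, dscet_spec_dec, hres, coeffMap_id, coeffMap_id,
        mul_comm]
    · rw [map_mul, dscet_spec_dec, hres, coeffMap_id]
      exact mul_ne_zero (fun h => hs₁ (Subtype.ext h)) (fun h => hs₂ (Subtype.ext h))
    · intro Q
      have e1 := hD' Q
      have e2 := hD Q
      have e3 := dscet_ord_of_normal M (g • f) hgf _ _ _ k₁ k₂ hc' (hk₂s ▸ hs₂) hcf' Q
      have e4 := dscet_ord_of_normal M f hf c u₁ u₂ h₁ h₂ hc hs₂ hcf Q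
      rw [DscGood.gen_mul k₁ h₂, DscGood.gen_mul k₂ h₁, Q.ord_mul hk₁g hg₂, Q.ord_mul hk₂g hg₁,
        AddSubgroupClass.coe_sub, Finsupp.sub_apply, mul_sub, e1, e2, e3, e4]
      ring
  have h2 : dscetMkHom M (SemilinearAut.degZeroSMulHom g D - D) = 0 := key
  rw [map_sub, sub_eq_zero] at h2
  exact h2

/-! ### Frobenius -/

theorem dscet_coeffMap_ne_zero {k : Type*} [Field k] (φ : k →+* k) {w : LaurentSeries k}
    (hw : w ≠ 0) : coeffMap φ w ≠ 0 :=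
  getm_coeffMap_ne_zero φ hw

/-- orders of the diamond translate of a Gauss-normalised function. -/
theorem dscet_ord_dia_of_quot (d : (ZMod M)ˣ) (f : FM) (hf : f ≠ 0) (c : Qb) (hc : c ≠ 0)
    (y₁ y₂ : FM) (hy₂ : y₂ ≠ 0) (h : algebraMap Qb FM c * f * y₂ = y₁) (Q : Place Qb FM) :
    Q.ord (dscDiamondAut Qb M 1 d f) =
      Q.ord (dscDiamondAut Qb M 1 d y₁) - Q.ord (dscDiamondAut Qb M 1 d y₂) := by
  have h' : algebraMap Qb FM c * dscDiamondAut Qb M 1 d f * dscDiamondAut Qb M 1 d y₂ =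
      dscDiamondAut Qb M 1 d y₁ := by
    rw [← h, map_mul, map_mul, AlgEquiv.commutes]
  exact dscet_ord_of_quot M _ ((map_ne_zero (dscDiamondAut Qb M 1 d)).mpr hf) c hc _ _
    ((map_ne_zero (dscDiamondAut Qb M 1 d)).mpr hy₂) h' Q

set_option maxHeartbeats 3200000 in
theorem dscet_frobenius {ℓ : ℕ} [Fact ℓ.Prime] (A : ValuationSubring Qb)
    (hA : A.LiesOverPrime ℓ) (hGN : DscetGN M 1 A) (p : ℕ) (hp : p.Prime) (hpℓ : p ≠ ℓ)
    (hCore : DscetCore M 1 A p)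
    (hIn : haveI : NeZero ℓ := ⟨(Fact.out : ℓ.Prime).ne_zero⟩; DscHeckeInputsAlong Qb M 1 ℓ)
    (d : (ZMod M)ˣ)
    (hConj : haveI : NeZero ℓ := ⟨(Fact.out : ℓ.Prime).ne_zero⟩;
      ∀ φ : ResidueField A →+* ResidueField A, (∀ y, φ y = y ^ ℓ) → DscetConj M ℓ A d φ)
    (σ : Qb ≃ₐ[ℚ] Qb) (hσ : A.IsFrobeniusAt σ ℓ) (x : DscJ M) (n : ℕ)
    (hx : p ^ n • x = 0) :
    dscDiamondBar M d (σ • σ • x) - dscHeckeBar M ⟨ℓ, Fact.out⟩ (σ • x) + ℓ • x = 0 := by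
  obtain ⟨hσD, hfrob⟩ := hσ
  set τ : A.decompositionSubgroup ℚ := ⟨σ, hσD⟩ with hτdef
  have hφ : ∀ y, getDecRes A τ y = y ^ ℓ := fun y => hfrob y
  set φ := getDecRes A τ with hφdef
  haveI : CharP (ResidueField A) ℓ := s18ac_charP A hA
  haveI : NeZero ℓ := ⟨(Fact.out : ℓ.Prime).ne_zero⟩
  have hCj := hConj φ hφ
  obtain ⟨D, rfl⟩ := Pic0.mk_surjective x
  obtain ⟨f, hf, hD⟩ := dscet_exists_fun M D (p ^ n) hx
  obtain ⟨c, u₁, u₂, h₁, h₂, hc, hs₁, hs₂, hcf⟩ := hGN f hf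
  -- conjugates of the pair
  have hD' := dscet_smul_pair M (dscetAut M σ) D _ f hD
  have hD'' := dscet_smul_pair M (dscetAut M σ) _ _ _ hD'
  have hD3 := dscet_smul_pair M (dscetDia M d) _ _ _ hD''
  have hgf : dscetAut M σ • f ≠ 0 := dscet_smul_ne_zero M _ f hf
  have hggf : dscetAut M σ • (dscetAut M σ • f) ≠ 0 := dscet_smul_ne_zero M _ _ hgf
  -- good elements
  have k₁ := dscet_good_dec M 1 A τ h₁
  have k₂ := dscet_good_dec M 1 A τ h₂
  have m₁ := dscet_good_dec M 1 A τ k₁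
  have m₂ := dscet_good_dec M 1 A τ k₂
  have hcf' : algebraMap Qb FM (σ c) * (dscetAut M σ • f) * k₂.gen = k₁.gen := by
    rw [dscet_gen_dec M 1 A τ h₁, dscet_gen_dec M 1 A τ h₂, ← hcf, smul_mul',
      dscet_smul_const_mul]
  have hcf'' : algebraMap Qb FM (σ (σ c)) * (dscetAut M σ • (dscetAut M σ • f)) * m₂.gen
      = m₁.gen := by
    rw [dscet_gen_dec M 1 A τ k₁, dscet_gen_dec M 1 A τ k₂, ← hcf', smul_mul',
      dscet_smul_const_mul]
  have hc' : σ c ≠ 0 := by simpa using hc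
  have hc'' : σ (σ c) ≠ 0 := by simpa using hc
  -- reductions
  have hū₁ : coeffMap (residue A) u₁ ≠ 0 := fun h => hs₁ (Subtype.ext h)
  have hū₂ : coeffMap (residue A) u₂ ≠ 0 := fun h => hs₂ (Subtype.ext h)
  have rk₁ : coeffMap (residue A) (coeffMap (getDecHom A τ) u₁) =
      coeffMap φ (coeffMap (residue A) u₁) := dscet_spec_dec A τ u₁
  have rk₂ : coeffMap (residue A) (coeffMap (getDecHom A τ) u₂) =
      coeffMap φ (coeffMap (residue A) u₂) := dscet_spec_dec A τ u₂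
  have hk₁s : k₁.spec ≠ 0 := by
    intro h
    have h' : coeffMap (residue A) (coeffMap (getDecHom A τ) u₁) = 0 := congrArg Subtype.val h
    rw [rk₁] at h'
    exact dscet_coeffMap_ne_zero φ hū₁ h'
  have hk₂s : k₂.spec ≠ 0 := by
    intro h
    have h' : coeffMap (residue A) (coeffMap (getDecHom A τ) u₂) = 0 := congrArg Subtype.val h
    rw [rk₂] at h'
    exact dscet_coeffMap_ne_zero φ hū₂ h'
  have hk₁g := k₁.gen_ne_zero hk₁s
  have hk₂g := k₂.gen_ne_zero hk₂s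
  have hm₁g : m₁.gen ≠ 0 := by
    rw [dscet_gen_dec M 1 A τ k₁]
    exact dscet_smul_ne_zero M _ _ hk₁g
  have hm₂g : m₂.gen ≠ 0 := by
    rw [dscet_gen_dec M 1 A τ k₂]
    exact dscet_smul_ne_zero M _ _ hk₂g
  -- the Hecke operator
  obtain ⟨E, hTE, hTf0, hE⟩ := dscff_hecke_class M ⟨ℓ, Fact.out⟩ hIn _ (p ^ n) _ hgf hD'
  -- the Kronecker congruences for `σ u₁`, `σ u₂`
  obtain ⟨U₁, U₂, w₁, w₂, hU₁, hU₂, hw₁, hw₂, a, a', ha, ha', hU₁s, hU₂s, hw₁s, hw₂s,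
    hUg, hwg, hUr⟩ := hCj _ k₁ hk₁s
  obtain ⟨V₁, V₂, y₁, y₂, hV₁, hV₂, hy₁, hy₂, b, b', hb, hb', hV₁s, hV₂s, hy₁s, hy₂s,
    hVg, hyg, hVr⟩ := hCj _ k₂ hk₂s
  rw [rk₁, get_qExpand_frobenius φ hφ] at hUr
  rw [rk₂, get_qExpand_frobenius φ hφ] at hVr
  -- the Galois conjugates of the diamond data
  have z₁ := dscet_good_dec M 1 A τ hw₁
  have z₂ := dscet_good_dec M 1 A τ hw₂
  have t₁ := dscet_good_dec M 1 A τ hy₁
  have t₂ := dscet_good_dec M 1 A τ hy₂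
  have rz₁ : coeffMap (residue A) (coeffMap (getDecHom A τ) w₁) =
      coeffMap φ (coeffMap (residue A) w₁) := dscet_spec_dec A τ w₁
  have rz₂ : coeffMap (residue A) (coeffMap (getDecHom A τ) w₂) =
      coeffMap φ (coeffMap (residue A) w₂) := dscet_spec_dec A τ w₂
  have rt₁ : coeffMap (residue A) (coeffMap (getDecHom A τ) y₁) =
      coeffMap φ (coeffMap (residue A) y₁) := dscet_spec_dec A τ y₁
  have rt₂ : coeffMap (residue A) (coeffMap (getDecHom A τ) y₂) =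
      coeffMap φ (coeffMap (residue A) y₂) := dscet_spec_dec A τ y₂
  have hwn₁ : coeffMap (residue A) w₁ ≠ 0 := fun h => hw₁s (Subtype.ext h)
  have hwn₂ : coeffMap (residue A) w₂ ≠ 0 := fun h => hw₂s (Subtype.ext h)
  have hyn₁ : coeffMap (residue A) y₁ ≠ 0 := fun h => hy₁s (Subtype.ext h)
  have hyn₂ : coeffMap (residue A) y₂ ≠ 0 := fun h => hy₂s (Subtype.ext h)
  have hUn₁ : coeffMap (residue A) U₁ ≠ 0 := fun h => hU₁s (Subtype.ext h)
  have hUn₂ : coeffMap (residue A) U₂ ≠ 0 := fun h => hU₂s (Subtype.ext h)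
  have hVn₁ : coeffMap (residue A) V₁ ≠ 0 := fun h => hV₁s (Subtype.ext h)
  have hVn₂ : coeffMap (residue A) V₂ ≠ 0 := fun h => hV₂s (Subtype.ext h)
  -- `σ` applied to the diamond normal forms: `σ(a') · δ(m_i) · z₂ = z₁`
  have hzg : algebraMap Qb FM (σ a') * dscDiamondAut Qb M 1 d m₁.gen * z₂.gen = z₁.gen := by
    rw [dscet_gen_dec M 1 A τ hw₁, dscet_gen_dec M 1 A τ hw₂, dscet_gen_dec M 1 A τ k₁, ← hwg,
      smul_mul', dscet_smul_const_mul, dscet_dia_galois]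
  have htg : algebraMap Qb FM (σ b') * dscDiamondAut Qb M 1 d m₂.gen * t₂.gen = t₁.gen := by
    rw [dscet_gen_dec M 1 A τ hy₁, dscet_gen_dec M 1 A τ hy₂, dscet_gen_dec M 1 A τ k₂, ← hyg,
      smul_mul', dscet_smul_const_mul, dscet_dia_galois]
  have hσa' : σ a' ≠ 0 := by simpa using ha'
  have hσb' : σ b' ≠ 0 := by simpa using hb'
  -- nonvanishing of all the generic fibres
  have hg₁ := h₁.gen_ne_zero hs₁
  have hg₂ := h₂.gen_ne_zero hs₂
  have hU₁g := hU₁.gen_ne_zero hU₁s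
  have hU₂g := hU₂.gen_ne_zero hU₂s
  have hV₁g := hV₁.gen_ne_zero hV₁s
  have hV₂g := hV₂.gen_ne_zero hV₂s
  have hw₁g := hw₁.gen_ne_zero hw₁s
  have hw₂g := hw₂.gen_ne_zero hw₂s
  have hy₁g := hy₁.gen_ne_zero hy₁s
  have hy₂g := hy₂.gen_ne_zero hy₂s
  have hz₁g : z₁.gen ≠ 0 := by
    rw [dscet_gen_dec M 1 A τ hw₁]
    exact dscet_smul_ne_zero M _ _ hw₁g
  have hz₂g : z₂.gen ≠ 0 := by
    rw [dscet_gen_dec M 1 A τ hw₂]
    exact dscet_smul_ne_zero M _ _ hw₂g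
  have ht₁g : t₁.gen ≠ 0 := by
    rw [dscet_gen_dec M 1 A τ hy₁]
    exact dscet_smul_ne_zero M _ _ hy₁g
  have ht₂g : t₂.gen ≠ 0 := by
    rw [dscet_gen_dec M 1 A τ hy₂]
    exact dscet_smul_ne_zero M _ _ hy₂g
  -- the two good elements
  have hW₁ := (((z₁.mul t₂).mul hU₂).mul hV₁).mul (h₁.pow ℓ)
  have hW₂ := (((z₂.mul t₁).mul hU₁).mul hV₂).mul (h₂.pow ℓ)
  have key : Pic0.mk (SemilinearAut.degZeroSMulHom (dscetDia M d)
      (SemilinearAut.degZeroSMulHom (dscetAut M σ)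
        (SemilinearAut.degZeroSMulHom (dscetAut M σ) D)) - E + ℓ • D) = 0 := by
    refine dscet_zero_of_good M A hA hGN p hp hpℓ hCore n _ _ _ hW₁ hW₂ ?_ ?_ ?_
    · simp only [map_mul, map_pow]
      rw [rz₁, rz₂, rt₁, rt₂]
      linear_combination
        (coeffMap φ (coeffMap (residue A) w₁) * coeffMap (residue A) U₂ *
          coeffMap (residue A) u₁ ^ ℓ) * hVr -
        (coeffMap φ (coeffMap (residue A) y₁) * coeffMap (residue A) V₂ *
          coeffMap (residue A) u₂ ^ ℓ) * hUr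
    · simp only [map_mul, map_pow]
      rw [rz₁, rt₂]
      exact mul_ne_zero (mul_ne_zero (mul_ne_zero (mul_ne_zero
        (dscet_coeffMap_ne_zero φ hwn₁) (dscet_coeffMap_ne_zero φ hyn₂)) hUn₂) hVn₁)
        (pow_ne_zero _ hū₁)
    · intro Q
      have e1 := hD3 Q
      have e2 := hE Q
      have e3 := hD Q
      -- orders of `δ (σ σ f)`
      have e4 : Q.ord (dscetDia M d • (dscetAut M σ • (dscetAut M σ • f))) =
          (Q.ord z₁.gen - Q.ord z₂.gen) - (Q.ord t₁.gen - Q.ord t₂.gen) := by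
        rw [dscetDia_smul, dscet_ord_dia_of_quot M d _ hggf _ hc'' _ _ hm₂g hcf'' Q,
          dscet_ord_of_quot M _ ((map_ne_zero (dscDiamondAut Qb M 1 d)).mpr hm₁g) _ hσa' _ _
            hz₂g hzg Q,
          dscet_ord_of_quot M _ ((map_ne_zero (dscDiamondAut Qb M 1 d)).mpr hm₂g) _ hσb' _ _
            ht₂g htg Q]
      -- orders of `f`
      have e5 := dscet_ord_of_normal M f hf c u₁ u₂ h₁ h₂ hc hs₂ hcf Q
      -- orders of `T (σ f)`
      have hT : dscHeckeFun M 1 ℓ (algebraMap Qb FM (σ c)) * dscHeckeFun M 1 ℓ (dscetAut M σ • f) *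
          dscHeckeFun M 1 ℓ k₂.gen = dscHeckeFun M 1 ℓ k₁.gen := by
        rw [← map_mul, ← map_mul, hcf']
      have hTk₁ : dscHeckeFun M 1 ℓ k₁.gen ≠ 0 := by
        intro h0
        apply hU₁g
        rw [← hUg, h0, mul_zero, zero_mul]
      have hTk₂ : dscHeckeFun M 1 ℓ k₂.gen ≠ 0 := by
        intro h0
        apply hV₁g
        rw [← hVg, h0, mul_zero, zero_mul]
      have hTc0 : dscHeckeFun M 1 ℓ (algebraMap Qb FM (σ c)) ≠ 0 := by
        intro h0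
        apply hTk₁
        rw [← hT, h0, zero_mul, zero_mul]
      have e6 : Q.ord (dscHeckeFun M 1 ℓ (dscetAut M σ • f)) =
          (Q.ord hU₁.gen - Q.ord hU₂.gen) - (Q.ord hV₁.gen - Q.ord hV₂.gen) := by
        have f1 : Q.ord (dscHeckeFun M 1 ℓ k₁.gen) = Q.ord hU₁.gen - Q.ord hU₂.gen :=
          dscet_ord_of_quot M _ hTk₁ a ha _ _ hU₂g hUg Q
        have f2 : Q.ord (dscHeckeFun M 1 ℓ k₂.gen) = Q.ord hV₁.gen - Q.ord hV₂.gen :=
          dscet_ord_of_quot M _ hTk₂ b hb _ _ hV₂g hVg Q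
        have f3 : Q.ord (dscHeckeFun M 1 ℓ k₁.gen) =
            Q.ord (dscHeckeFun M 1 ℓ (dscetAut M σ • f)) + Q.ord (dscHeckeFun M 1 ℓ k₂.gen) := by
          rw [← hT, Q.ord_mul (mul_ne_zero hTc0 hTf0) hTk₂, Q.ord_mul hTc0 hTf0,
            dscff_hecke_const_ord, zero_add]
        linarith
      have e7 : ((SemilinearAut.degZeroSMulHom (dscetDia M d)
          (SemilinearAut.degZeroSMulHom (dscetAut M σ)
            (SemilinearAut.degZeroSMulHom (dscetAut M σ) D)) - E + ℓ • D :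
            Divisor.degZero (K := Qb) (F := FM)) : Divisor Qb FM) Q =
          ((SemilinearAut.degZeroSMulHom (dscetDia M d)
            (SemilinearAut.degZeroSMulHom (dscetAut M σ)
              (SemilinearAut.degZeroSMulHom (dscetAut M σ) D)) :
              Divisor.degZero (K := Qb) (F := FM)) : Divisor Qb FM) Q
          - (E : Divisor Qb FM) Q + (ℓ : ℤ) * (D : Divisor Qb FM) Q := by
        simp
      have e8 : Q.ord hW₁.gen = Q.ord z₁.gen + Q.ord t₂.gen + Q.ord hU₂.gen + Q.ord hV₁.gen +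
          (ℓ : ℤ) * Q.ord h₁.gen := by
        rw [DscGood.gen_mul (((z₁.mul t₂).mul hU₂).mul hV₁) (h₁.pow ℓ),
          DscGood.gen_mul ((z₁.mul t₂).mul hU₂) hV₁, DscGood.gen_mul (z₁.mul t₂) hU₂,
          DscGood.gen_mul z₁ t₂, DscGood.gen_pow h₁ ℓ,
          Q.ord_mul (mul_ne_zero (mul_ne_zero (mul_ne_zero hz₁g ht₂g) hU₂g) hV₁g)
            (pow_ne_zero _ hg₁),
          Q.ord_mul (mul_ne_zero (mul_ne_zero hz₁g ht₂g) hU₂g) hV₁g,
          Q.ord_mul (mul_ne_zero hz₁g ht₂g) hU₂g, Q.ord_mul hz₁g ht₂g, dscet_ord_pow]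
      have e9 : Q.ord hW₂.gen = Q.ord z₂.gen + Q.ord t₁.gen + Q.ord hU₁.gen + Q.ord hV₂.gen +
          (ℓ : ℤ) * Q.ord h₂.gen := by
        rw [DscGood.gen_mul (((z₂.mul t₁).mul hU₁).mul hV₂) (h₂.pow ℓ),
          DscGood.gen_mul ((z₂.mul t₁).mul hU₁) hV₂, DscGood.gen_mul (z₂.mul t₁) hU₁,
          DscGood.gen_mul z₂ t₁, DscGood.gen_pow h₂ ℓ,
          Q.ord_mul (mul_ne_zero (mul_ne_zero (mul_ne_zero hz₂g ht₁g) hU₁g) hV₂g)
            (pow_ne_zero _ hg₂),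
          Q.ord_mul (mul_ne_zero (mul_ne_zero hz₂g ht₁g) hU₁g) hV₂g,
          Q.ord_mul (mul_ne_zero hz₂g ht₁g) hU₁g, Q.ord_mul hz₂g ht₁g, dscet_ord_pow]
      rw [e7, mul_add, mul_sub, e1, e2, e4, e6, e8, e9]
      have e10 : ((p ^ n : ℕ) : ℤ) * ((ℓ : ℤ) * (D : Divisor Qb FM) Q) =
          (ℓ : ℤ) * (((p ^ n : ℕ) : ℤ) * (D : Divisor Qb FM) Q) := by ring
      rw [e10, e3, e5]
      ring
  have h2 : dscetMkHom M (SemilinearAut.degZeroSMulHom (dscetDia M d)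
      (SemilinearAut.degZeroSMulHom (dscetAut M σ)
        (SemilinearAut.degZeroSMulHom (dscetAut M σ) D)) - E + ℓ • D) = 0 := key
  rw [map_add, map_sub, map_nsmul] at h2
  rw [dscet_smul_mk, dscet_smul_mk, dscet_dia_mk, hTE]
  exact h2

/-! ### The top statement -/

/-- (ES-TORS for `X₁(M)`) inertia at `ℓ ∤ M p` acts trivially on `J₁(M)[p^∞]`, and every
Frobenius lift `σ` at `ℓ` satisfies `⟨d⟩ σ² − T_ℓ σ + ℓ = 0` there, `T_ℓ = dscHeckeBar M ℓ = α_* β^*`,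
`d` the unit for which the Kronecker congruence `DscetConj` holds. -/
theorem dsc_es_torsion (M : ℕ) (p : ℕ) (hp : p.Prime) (ℓ : ℕ) (hℓ : ℓ.Prime) (hℓp : ℓ ≠ p)
    (A : ValuationSubring (AlgebraicClosure ℚ)) (hA : A.LiesOverPrime ℓ)
    (hGN : DscetGN M 1 A) (hCore : DscetCore M 1 A p)
    (hIn : haveI : NeZero ℓ := ⟨hℓ.ne_zero⟩; DscHeckeInputsAlong Qb M 1 ℓ)
    (d : (ZMod M)ˣ)
    (hConj : haveI : NeZero ℓ := ⟨hℓ.ne_zero⟩;
      ∀ φ : ResidueField A →+* ResidueField A, (∀ y, φ y = y ^ ℓ) → DscetConj M ℓ A d φ) :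
    (∀ σ ∈ A.inertiaSubgroupIn ℚ, ∀ x : DscJ M, (∃ n : ℕ, p ^ n • x = 0) → σ • x = x) ∧
    (∀ σ : AlgebraicClosure ℚ ≃ₐ[ℚ] AlgebraicClosure ℚ, A.IsFrobeniusAt σ ℓ →
      ∀ x : DscJ M, (∃ n : ℕ, p ^ n • x = 0) →
        dscDiamondBar M d (σ • σ • x) - dscHeckeBar M ⟨ℓ, hℓ⟩ (σ • x) + ℓ • x = 0) := by
  haveI : Fact ℓ.Prime := ⟨hℓ⟩
  refine ⟨fun σ hσ x ⟨n, hn⟩ => dscet_inertia M A hA hGN p hp hℓp.symm hCore σ hσ x n hn,
    fun σ hσ x ⟨n, hn⟩ => dscet_frobenius M A hA hGN p hp hℓp.symm hCore hIn d hConj σ hσ x n hn⟩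

end Fermat.Agent.DS
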