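import Mathlib
import Fermat.Agent.DS.C.Conj.Congr

/-!
# Program DS, package (C), row C5 (helper28) : THE EXPORT OF C5 IN THE SHAPE OF THE ASSEMBLY

* `dsc_es_of_ns` : `dsc_es_torsion` with the Kronecker congruence replaced by the norm series
  identity (NS) (`DsccjNS`, `Conj/Congr.lean`);
* `dsc_es_field` : the field `es` of helper20's `DscInputs M s` (`DS/C/Asm/Inst.lean`), VERBATIM
  up to the sign function `sg : (ZMod M)ˣ → (ZMod M)ˣ` (instantiate `sg := dsciSg s`), from the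
  four families of producers' statements:
  (GN)   `∀ p prime ∤ M, ∀ A over p, DscetGN M 1 A`                 [helper14 `dscgn_normal`]
  (CORE) `∀ ℓ ≠ p, ..., DscetCore M 1 A ℓ`                           [helper6 `dsc_core`]
  (FF1)  `∀ p prime ∤ M, DscHeckeInputsAlong ℚ̄ M 1 p`               [`dscff_heckeInputs` + C2]
  (NS)   `∀ p prime ∤ M, ∀ d ≡ p, DsccjNS M p (sg d)`                [Conj port].
-/

set_option autoImplicit false
set_option linter.unusedSectionVars false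
set_option linter.unusedVariables false
set_option linter.style.haveILetI false
set_option synthInstance.maxHeartbeats 400000

noncomputable section

namespace Fermat.Agent.DS

open ModularCurve AlgebraicCurve IsLocalRing Fermat.Agent.G

local notation "Qb" => AlgebraicClosure ℚ

/-- ES on torsion of `J₁(M)` from the norm series identity (torsion prime `p`, Hecke prime `ℓ`). -/
theorem dsc_es_of_ns (M : ℕ) (p : ℕ) (hp : p.Prime) (ℓ : ℕ) (hℓ : ℓ.Prime) (hℓp : ℓ ≠ p)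
    (A : ValuationSubring Qb) (hA : A.LiesOverPrime ℓ)
    (hGN : DscetGN M 1 A) (hCore : DscetCore M 1 A p)
    (hIn : haveI : NeZero ℓ := ⟨hℓ.ne_zero⟩; DscHeckeInputsAlong Qb M 1 ℓ)
    (d : (ZMod M)ˣ) (hNS : haveI : NeZero ℓ := ⟨hℓ.ne_zero⟩; DsccjNS M ℓ d) :
    (∀ σ ∈ A.inertiaSubgroupIn ℚ, ∀ x : DscJ M, (∃ n : ℕ, p ^ n • x = 0) → σ • x = x) ∧
    (∀ σ : Qb ≃ₐ[ℚ] Qb, A.IsFrobeniusAt σ ℓ →
      ∀ x : DscJ M, (∃ n : ℕ, p ^ n • x = 0) →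
        dscDiamondBar M d (σ • σ • x) - dscHeckeBar M ⟨ℓ, hℓ⟩ (σ • x) + ℓ • x = 0) := by
  haveI : Fact ℓ.Prime := ⟨hℓ⟩
  exact dsc_es_torsion M p hp ℓ hℓ hℓp A hA hGN hCore hIn d
    (fun φ hφ => dsccg_conj_of_ns M A hA d hNS hGN φ hφ)

/-- THE FIELD `es` OF `DscInputs M s` (torsion prime `ℓ`, Hecke prime `p`, as in the assembly). -/
theorem dsc_es_field (M : ℕ) (sg : (ZMod M)ˣ → (ZMod M)ˣ)
    (hGN : ∀ p : ℕ, p.Prime → ¬ p ∣ M → ∀ A : ValuationSubring Qb, A.LiesOverPrime p →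
      DscetGN M 1 A)
    (hCore : ∀ ℓ p : ℕ, ℓ.Prime → p.Prime → ¬ p ∣ M → ℓ ≠ p → ∀ A : ValuationSubring Qb,
      A.LiesOverPrime p → DscetCore M 1 A ℓ)
    (hIn : ∀ (p : ℕ) (hp : p.Prime), ¬ p ∣ M →
      haveI : NeZero p := ⟨hp.ne_zero⟩; DscHeckeInputsAlong Qb M 1 p)
    (hNS : ∀ (p : ℕ) (hp : p.Prime), ¬ p ∣ M → ∀ d : (ZMod M)ˣ, (d : ZMod M) = (p : ZMod M) →
      haveI : NeZero p := ⟨hp.ne_zero⟩; DsccjNS M p (sg d)) :
    ∀ ℓ : ℕ, ℓ.Prime → ∀ (p : ℕ) (hp : p.Prime), ¬ p ∣ M * ℓ → ∀ d : (ZMod M)ˣ,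
      (d : ZMod M) = (p : ZMod M) → ∀ A : ValuationSubring Qb, A.LiesOverPrime p →
      (∀ σ ∈ A.inertiaSubgroupIn ℚ, ∀ x : DscJ M, (∃ n : ℕ, ℓ ^ n • x = 0) → σ • x = x) ∧
      (∀ σ : Qb ≃ₐ[ℚ] Qb, A.IsFrobeniusAt σ p → ∀ x : DscJ M, (∃ n : ℕ, ℓ ^ n • x = 0) →
        dscDiamondBar M (sg d) (σ • σ • x) - dscHeckeBar M ⟨p, hp⟩ (σ • x) + p • x = 0) := by
  intro ℓ hℓ p hp hpMℓ d hd A hA
  have hpM : ¬ p ∣ M := fun h => hpMℓ (h.mul_right ℓ)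
  have hpℓ : p ≠ ℓ := by
    rintro rfl
    exact hpMℓ (dvd_mul_left p M)
  exact dsc_es_of_ns M ℓ hℓ p hp hpℓ A hA (hGN p hp hpM A hA)
    (hCore ℓ p hℓ hp hpM hpℓ.symm A hA) (hIn p hp hpM) (sg d) (hNS p hp hpM d hd)

end Fermat.Agent.DS
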