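import Mathlib
import Fermat.Agent.DS.C.EsTor.Top

/-!
# Program DS, package (C), row C5 (helper28) : THE FIELD `es` OF `DscInputs M s` FROM THE PRODUCERS

`dsc_es_of_producers` : the field `es` of helper20's `DscInputs M s` (`DS/C/Asm/Inst.lean`),
VERBATIM up to the sign function `sg : (ZMod M)ˣ → (ZMod M)ˣ` (instantiate `sg := dsciSg s`), from
the producers' statements in the shape in which they are delivered:

* (GN)   `hGN   : ∀ p prime ∤ M, ∀ A over p, DscetGN M 1 A`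
         [helper14 : `fun p hp hpM A hA f hf => dscgn_normal M 1 A (by rwa [mul_one]) hA f hf`]
* (CORE) `hCore : ∀ ℓ p prime, p ∤ M, ℓ ≠ p, ∀ A over p, DscetCore M 1 A ℓ`
         [helper6 : `fun ℓ p hℓ hp hpM hℓp A hA => haveI : Fact p.Prime := ⟨hp⟩;
                      dsc_core M A hpM hA ℓ hℓ hℓp`]
* (SEP)  `hsep1 : IsSepGen ℚ̄ (dscJBar ℚ̄ M 1)`     [helper16 `dscbr_isSepGen_bar M` / helper17
                                                      `dsc_isSepGen_jBar M`]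
         `hsepP : ∀ p prime ∤ M, IsSepGen ℚ̄ (dscJBar ℚ̄ M p)`   [helper25 `dscbrLevelP` + helper17
                                                      `dscl_isSepGen_jF`]
* (NS)   `hNS   : ∀ p prime ∤ M, ∀ d ≡ p, ∃ ζ₀ primitive p-th root, ∀ f,
            (N_α β f)(q^p) = f(q^(p·p)) · ∏_{b<p} (⟨sg d⟩ f)(ζ₀^b q)`
         stated UNFOLDED, so that both `DsccjNS M p (sg d)` (`Conj/Congr.lean`) and helper14's
         `DsccjNormSeries M p (dsccjDiamondHom M (sg d))` (`Conj/Main.lean`) are accepted as they are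
         (definitional unfolding).
-/

set_option autoImplicit false
set_option linter.unusedSectionVars false
set_option linter.unusedVariables false
set_option linter.style.haveILetI false
set_option synthInstance.maxHeartbeats 400000

noncomputable section

namespace Fermat.Agent.DS

open ModularCurve AlgebraicCurve IsLocalRing Fermat.Agent.S24 Fermat.Agent.G

local notation "Qb" => AlgebraicClosure ℚ

/-- THE FIELD `es` OF `DscInputs M s` from the producers of rows C1c/C2 (SEP), C4 (CORE),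
C5 (GN, NS). -/
theorem dsc_es_of_producers (M : ℕ) (sg : (ZMod M)ˣ → (ZMod M)ˣ)
    (hGN : ∀ p : ℕ, p.Prime → ¬ p ∣ M → ∀ A : ValuationSubring Qb, A.LiesOverPrime p →
      DscetGN M 1 A)
    (hCore : ∀ ℓ p : ℕ, ℓ.Prime → p.Prime → ¬ p ∣ M → ℓ ≠ p → ∀ A : ValuationSubring Qb,
      A.LiesOverPrime p → DscetCore M 1 A ℓ)
    (hsep1 : IsSepGen Qb (dscJBar Qb M 1))
    (hsepP : ∀ p : ℕ, p.Prime → ¬ p ∣ M → IsSepGen Qb (dscJBar Qb M p))
    (hNS : ∀ (p : ℕ) (hp : p.Prime), ¬ p ∣ M → ∀ d : (ZMod M)ˣ, (d : ZMod M) = (p : ZMod M) →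
      haveI : NeZero p := ⟨hp.ne_zero⟩
      ∃ ζ₀ : Qbˣ, IsPrimitiveRoot ζ₀ p ∧ ∀ f : dscFieldBar M 1,
        qExpand Qb p ((dscHeckeFun M 1 p f : dscFieldBar M 1) : LaurentSeries Qb) =
          qExpand Qb (p * p) (f : LaurentSeries Qb) *
            gcjfProd p ζ₀ ((dscDiamondAut Qb M 1 (sg d) f : dscFieldBar M 1) :
              LaurentSeries Qb)) :
    ∀ ℓ : ℕ, ℓ.Prime → ∀ (p : ℕ) (hp : p.Prime), ¬ p ∣ M * ℓ → ∀ d : (ZMod M)ˣ,
      (d : ZMod M) = (p : ZMod M) → ∀ A : ValuationSubring Qb, A.LiesOverPrime p →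
      (∀ σ ∈ A.inertiaSubgroupIn ℚ, ∀ x : DscJ M, (∃ n : ℕ, ℓ ^ n • x = 0) → σ • x = x) ∧
      (∀ σ : Qb ≃ₐ[ℚ] Qb, A.IsFrobeniusAt σ p → ∀ x : DscJ M, (∃ n : ℕ, ℓ ^ n • x = 0) →
        dscDiamondBar M (sg d) (σ • σ • x) - dscHeckeBar M ⟨p, hp⟩ (σ • x) + p • x = 0) :=
  dsc_es_field M sg hGN hCore
    (fun p hp hpM => haveI : NeZero p := ⟨hp.ne_zero⟩
      dscff_heckeInputs_one M p hsep1 (hsepP p hp hpM))
    (fun p hp hpM d hd => hNS p hp hpM d hd)

end Fermat.Agent.DS
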